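import Mathlib
import Fermat.Prelude.Def_ModularCurve_GenusNumerics

/-!
# Combinatorics of `SL(2,ℤ) ⧸ Γ₀(N)`: basic interface

Shared lemmas for the four counts (index, fixed points of `S`, of `S * T`, orbits of `T`).
-/

set_option autoImplicit false

namespace Fermat.Agent.S20.Comb

open scoped MatrixGroups
open CongruenceSubgroup ModularGroup

/-- The coset space `SL(2,ℤ) ⧸ Γ₀(N)` with its left `SL(2,ℤ)`-action. -/
abbrev Q (N : ℕ) : Type := SL(2, ℤ) ⧸ Gamma0 N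

/-- lower-left entry of `g⁻¹ * h`. -/
theorem inv_mul_apply_one_zero (g h : SL(2, ℤ)) :
    (g⁻¹ * h) 1 0 = g 0 0 * h 1 0 - g 1 0 * h 0 0 := by
  rw [Matrix.SpecialLinearGroup.coe_mul, Matrix.SpecialLinearGroup.SL2_inv_expl, Matrix.mul_apply]
  simp [Fin.sum_univ_two]
  ring

/-- Coset criterion (in `ZMod N`): `gΓ₀(N) = hΓ₀(N)` iff the first columns are proportional. -/
theorem mk_eq_mk_iff (N : ℕ) (g h : SL(2, ℤ)) :
    (QuotientGroup.mk g : Q N) = QuotientGroup.mk h ↔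
      ((g 0 0 : ℤ) : ZMod N) * ((h 1 0 : ℤ) : ZMod N)
        - ((g 1 0 : ℤ) : ZMod N) * ((h 0 0 : ℤ) : ZMod N) = 0 := by
  rw [QuotientGroup.eq, Gamma0_mem, inv_mul_apply_one_zero]
  push_cast
  rfl

/-- Coset criterion (divisibility in `ℤ`). -/
theorem mk_eq_mk_iff_dvd (N : ℕ) (g h : SL(2, ℤ)) :
    (QuotientGroup.mk g : Q N) = QuotientGroup.mk h ↔
      (N : ℤ) ∣ g 0 0 * h 1 0 - g 1 0 * h 0 0 := by
  rw [QuotientGroup.eq, Gamma0_mem, inv_mul_apply_one_zero, ZMod.intCast_zmod_eq_zero_iff_dvd]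

/-- The first column of an element of `SL(2,ℤ)` is a coprime pair. -/
theorem isCoprime_col (g : SL(2, ℤ)) : IsCoprime (g 0 0) (g 1 0) := by
  refine ⟨g 1 1, -g 0 1, ?_⟩
  have := g.det_coe
  rw [Matrix.det_fin_two] at this
  linarith

theorem smul_mk (N : ℕ) (γ g : SL(2, ℤ)) :
    γ • (QuotientGroup.mk g : Q N) = QuotientGroup.mk (γ * g) := rfl

@[simp] theorem S_mul_apply_zero_zero (g : SL(2, ℤ)) : (S * g) 0 0 = - g 1 0 := by
  rw [Matrix.SpecialLinearGroup.coe_mul, coe_S, Matrix.mul_apply]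
  simp [Fin.sum_univ_two]

@[simp] theorem S_mul_apply_one_zero (g : SL(2, ℤ)) : (S * g) 1 0 = g 0 0 := by
  rw [Matrix.SpecialLinearGroup.coe_mul, coe_S, Matrix.mul_apply]
  simp [Fin.sum_univ_two]

@[simp] theorem T_mul_apply_zero_zero (g : SL(2, ℤ)) : (T * g) 0 0 = g 0 0 + g 1 0 := by
  rw [Matrix.SpecialLinearGroup.coe_mul, coe_T, Matrix.mul_apply]
  simp [Fin.sum_univ_two]

@[simp] theorem T_mul_apply_one_zero (g : SL(2, ℤ)) : (T * g) 1 0 = g 1 0 := by
  rw [Matrix.SpecialLinearGroup.coe_mul, coe_T, Matrix.mul_apply]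
  simp [Fin.sum_univ_two]

@[simp] theorem T_zpow_mul_apply_zero_zero (n : ℤ) (g : SL(2, ℤ)) :
    (T ^ n * g) 0 0 = g 0 0 + n * g 1 0 := by
  rw [Matrix.SpecialLinearGroup.coe_mul, coe_T_zpow, Matrix.mul_apply]
  simp [Fin.sum_univ_two]

@[simp] theorem T_zpow_mul_apply_one_zero (n : ℤ) (g : SL(2, ℤ)) :
    (T ^ n * g) 1 0 = g 1 0 := by
  rw [Matrix.SpecialLinearGroup.coe_mul, coe_T_zpow, Matrix.mul_apply]
  simp [Fin.sum_univ_two]

/-- Given naturals with `gcd(a, c, N) = 1` and `c ≠ 0`, one can move `a` in its class mod `N`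
to make it coprime to `c`. -/
theorem exists_add_mul_coprime (a c N : ℕ) (hc : c ≠ 0) (h : (a.gcd c).Coprime N) :
    ∃ k : ℕ, (a + k * N).Coprime c := by
  let ps : Finset ℕ := {p ∈ c.primeFactors | ¬p ∣ a}
  use ps.prod id
  apply Nat.coprime_of_dvd
  intro p pp hp hpc
  by_cases hpa : p ∣ a
  · have h1 := Nat.dvd_sub hp hpa
    rw [add_comm, Nat.add_sub_cancel] at h1
    rcases pp.dvd_mul.mp h1 with h2 | h2
    · have ⟨q, hq, hq'⟩ := (pp.prime.dvd_finsetProd_iff id).mp h2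
      rw [Finset.mem_filter, Nat.mem_primeFactors,
        ← (Nat.prime_dvd_prime_iff_eq pp hq.1.1).mp hq'] at hq
      exact hq.2 hpa
    · exact Nat.Prime.not_coprime_iff_dvd.mpr ⟨p, pp, Nat.dvd_gcd hpa hpc, h2⟩ h
  · have pps : p ∈ ps := Finset.mem_filter.mpr ⟨Nat.mem_primeFactors.mpr ⟨pp, hpc, hc⟩, hpa⟩
    have h1 := Nat.dvd_sub hp ((Finset.dvd_prod_of_mem id pps).mul_right N)
    rw [Nat.add_sub_cancel] at h1
    contradiction

/-- A matrix in `SL(2,ℤ)` with prescribed coprime first column. -/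
theorem exists_SL2_col (a c : ℤ) (h : IsCoprime a c) :
    ∃ g : SL(2, ℤ), g 0 0 = a ∧ g 1 0 = c := by
  obtain ⟨u, v, huv⟩ := h
  refine ⟨⟨!![a, -v; c, u], ?_⟩, rfl, rfl⟩
  rw [Matrix.det_fin_two_of]
  linarith

/-- Unimodular columns mod `N`. -/
def IsUnimod {N : ℕ} (v : ZMod N × ZMod N) : Prop := ∃ x y : ZMod N, x * v.1 + y * v.2 = 1

/-- The type of unimodular columns mod `N`. -/
abbrev Unimod (N : ℕ) : Type := {v : ZMod N × ZMod N // IsUnimod v}

/-- Reduction mod `N` of the first column. -/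
def col (N : ℕ) (g : SL(2, ℤ)) : Unimod N :=
  ⟨(((g 0 0 : ℤ) : ZMod N), ((g 1 0 : ℤ) : ZMod N)), by
    obtain ⟨u, v, huv⟩ := isCoprime_col g
    exact ⟨(u : ZMod N), (v : ZMod N), by
      have := congrArg (Int.cast : ℤ → ZMod N) huv
      push_cast at this
      exact this⟩⟩

@[simp] theorem col_fst (N : ℕ) (g : SL(2, ℤ)) : (col N g).1.1 = ((g 0 0 : ℤ) : ZMod N) := rfl
@[simp] theorem col_snd (N : ℕ) (g : SL(2, ℤ)) : (col N g).1.2 = ((g 1 0 : ℤ) : ZMod N) := rfl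

/-- Lifting lemma: every unimodular column mod `N` is the reduction of the first column of an
element of `SL(2,ℤ)`. -/
theorem exists_SL2_col_mod (N : ℕ) [NeZero N] (a c : ZMod N)
    (h : ∃ x y : ZMod N, x * a + y * c = 1) :
    ∃ g : SL(2, ℤ), ((g 0 0 : ℤ) : ZMod N) = a ∧ ((g 1 0 : ℤ) : ZMod N) = c := by
  obtain ⟨x, y, hxy⟩ := h
  set a0 : ℕ := a.val with ha0
  set c0 : ℕ := c.val + N with hc0
  have hc0ne : c0 ≠ 0 := by have := NeZero.ne N; omega
  have hca : ((a0 : ℕ) : ZMod N) = a := ZMod.natCast_zmod_val a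
  have hcc : ((c0 : ℕ) : ZMod N) = c := by simp [hc0]
  have hcop : (a0.gcd c0).Coprime N := by
    apply Nat.coprime_of_dvd
    intro p pp hp hpN
    have h1 : p ∣ a0 := hp.trans (Nat.gcd_dvd_left _ _)
    have h2 : p ∣ c0 := hp.trans (Nat.gcd_dvd_right _ _)
    have e1 : ((a0 : ℕ) : ZMod p) = 0 := (ZMod.natCast_eq_zero_iff _ _).mpr h1
    have e2 : ((c0 : ℕ) : ZMod p) = 0 := (ZMod.natCast_eq_zero_iff _ _).mpr h2
    have h3 := congrArg (ZMod.castHom hpN (ZMod p)) hxy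
    rw [map_add, map_mul, map_mul, map_one, ← hca, ← hcc, map_natCast, map_natCast, e1, e2] at h3
    have : Fact p.Prime := ⟨pp⟩
    simp at h3
  obtain ⟨k, hk⟩ := exists_add_mul_coprime a0 c0 N hc0ne hcop
  obtain ⟨g, hg0, hg1⟩ := exists_SL2_col ((a0 + k * N : ℕ) : ℤ) (c0 : ℤ)
    (Nat.isCoprime_iff_coprime.mpr hk)
  refine ⟨g, ?_, ?_⟩
  · rw [hg0]; push_cast; simp [hca]
  · rw [hg1]; push_cast; simpa using hcc

theorem col_surjective (N : ℕ) [NeZero N] : Function.Surjective (col N) := by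
  rintro ⟨⟨a, c⟩, h⟩
  obtain ⟨g, h0, h1⟩ := exists_SL2_col_mod N a c h
  exact ⟨g, Subtype.ext (Prod.ext h0 h1)⟩

/-- Coset criterion in terms of `col`. -/
theorem mk_eq_mk_iff_col (N : ℕ) (g h : SL(2, ℤ)) :
    (QuotientGroup.mk g : Q N) = QuotientGroup.mk h ↔
      (col N g).1.1 * (col N h).1.2 - (col N g).1.2 * (col N h).1.1 = 0 :=
  mk_eq_mk_iff N g h

/-- Two unimodular columns have zero cross product iff they differ by a unit. -/
theorem cross_eq_zero_iff {N : ℕ} (v w : Unimod N) :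
    v.1.1 * w.1.2 - v.1.2 * w.1.1 = 0 ↔ ∃ u : (ZMod N)ˣ, w.1 = ((u : ZMod N) * v.1.1, (u : ZMod N) * v.1.2) := by
  obtain ⟨⟨a, c⟩, x, y, hxy⟩ := v
  obtain ⟨⟨a', c'⟩, x', y', hxy'⟩ := w
  simp only at hxy hxy' ⊢
  constructor
  · intro h
    have h' : a * c' = c * a' := sub_eq_zero.mp h
    have e1 : (x * a' + y * c') * a = a' := by
      linear_combination y * h' + a' * hxy
    have e2 : (x * a' + y * c') * c = c' := by
      linear_combination (-x) * h' + c' * hxy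
    have e3 : (x' * a + y' * c) * a' = a := by
      linear_combination (-y') * h' + a * hxy'
    have e4 : (x' * a + y' * c) * c' = c := by
      linear_combination x' * h' + c * hxy'
    have hu : (x * a' + y * c') * (x' * a + y' * c) = 1 := by
      linear_combination x' * e1 + y' * e2 + hxy'
    refine ⟨⟨x * a' + y * c', x' * a + y' * c, hu, by rw [mul_comm]; exact hu⟩, ?_⟩
    exact Prod.ext e1.symm e2.symm
  · rintro ⟨u, hu⟩
    have h1 : a' = u * a := congrArg Prod.fst hu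
    have h2 : c' = u * c := congrArg Prod.snd hu
    rw [h1, h2]; ring

end Fermat.Agent.S20.Comb
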